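import Mathlib
import Fermat.Agent.LT.T7.H445.StepMSpec
import Fermat.Agent.LT.T7.H444.ArchConv

/-!
# Row LT, tower T7, node T7.L2.1.H2a.A.3 `StepMC981`, leaf M.8 `SphConvC445`
# (helper266, SPARE, OFF-MAIN): the sphere family is continuous; FUBINI

* `continuous_sph266` : a sphere family of `GL₂(ℂ)` (`H445.IsSphC445`) is jointly continuous;
* `sphMean_convInt266` : `M (A ⋆ B) = A ⋆ M B` for continuous functions with compact support
  (`M` = the local sphere mean `H445.sphMeanC445`, `⋆` = `T6.convInt`), every Haar measure.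

No hole, nothing assumed.  No equation lemma of a foreign definition is realised.
-/

set_option autoImplicit false
set_option linter.unusedSectionVars false
set_option linter.unusedVariables false
set_option linter.style.haveILetI false

open MeasureTheory
open scoped ENNReal

noncomputable section

namespace Fermat.Agent.LT.T7.H266

open Fermat.Agent.LT Fermat.Agent.LT.H556 Fermat.Agent.LT.H556.A0 Fermat.Agent.LT.T7
  Fermat.Agent.LT.T7.H305

/-! ## 1. The sphere family -/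

theorem det_rotZ266 (α : ℝ) : (rotZ α).det = 1 := by
  show (!![Complex.exp (Complex.I * ((α / 2 : ℝ) : ℂ)), 0;
     0, Complex.exp (-(Complex.I * ((α / 2 : ℝ) : ℂ)))] : Matrix (Fin 2) (Fin 2) ℂ).det = 1
  rw [Matrix.det_fin_two_of, mul_zero, sub_zero, ← Complex.exp_add, add_neg_cancel,
    Complex.exp_zero]

theorem det_rotY266 (β : ℝ) : (rotY β).det = 1 := by
  show (!![((Real.cos (β / 2) : ℝ) : ℂ), -((Real.sin (β / 2) : ℝ) : ℂ);
     ((Real.sin (β / 2) : ℝ) : ℂ), ((Real.cos (β / 2) : ℝ) : ℂ)] :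
       Matrix (Fin 2) (Fin 2) ℂ).det = 1
  rw [Matrix.det_fin_two_of]
  have h := Real.cos_sq_add_sin_sq (β / 2)
  have h' : ((Real.cos (β / 2) : ℝ) : ℂ) ^ 2 + ((Real.sin (β / 2) : ℝ) : ℂ) ^ 2 = 1 := by
    exact_mod_cast h
  linear_combination h'

theorem det_torus266 (d : ℝ) : (torus d).det = 1 := by
  show (!![((Real.exp (d / 2) : ℝ) : ℂ), 0;
     0, ((Real.exp (-(d / 2)) : ℝ) : ℂ)] : Matrix (Fin 2) (Fin 2) ℂ).det = 1
  rw [Matrix.det_fin_two_of, mul_zero, sub_zero]
  have h : Real.exp (d / 2) * Real.exp (-(d / 2)) = 1 := by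
    rw [← Real.exp_add, add_neg_cancel, Real.exp_zero]
  exact_mod_cast h

theorem continuous_rotZ266 : Continuous rotZ := by
  show Continuous fun α : ℝ => (!![Complex.exp (Complex.I * ((α / 2 : ℝ) : ℂ)), 0;
     0, Complex.exp (-(Complex.I * ((α / 2 : ℝ) : ℂ)))] : Matrix (Fin 2) (Fin 2) ℂ)
  refine continuous_matrix fun i j => ?_
  fin_cases i <;> fin_cases j
  · show Continuous fun α : ℝ => Complex.exp (Complex.I * ((α / 2 : ℝ) : ℂ))
    fun_prop
  · show Continuous fun _ : ℝ => (0 : ℂ)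
    fun_prop
  · show Continuous fun _ : ℝ => (0 : ℂ)
    fun_prop
  · show Continuous fun α : ℝ => Complex.exp (-(Complex.I * ((α / 2 : ℝ) : ℂ)))
    fun_prop

theorem continuous_rotY266 : Continuous rotY := by
  show Continuous fun β : ℝ => (!![((Real.cos (β / 2) : ℝ) : ℂ), -((Real.sin (β / 2) : ℝ) : ℂ);
     ((Real.sin (β / 2) : ℝ) : ℂ), ((Real.cos (β / 2) : ℝ) : ℂ)] : Matrix (Fin 2) (Fin 2) ℂ)
  refine continuous_matrix fun i j => ?_
  fin_cases i <;> fin_cases j
  · show Continuous fun β : ℝ => ((Real.cos (β / 2) : ℝ) : ℂ)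
    fun_prop
  · show Continuous fun β : ℝ => -((Real.sin (β / 2) : ℝ) : ℂ)
    fun_prop
  · show Continuous fun β : ℝ => ((Real.sin (β / 2) : ℝ) : ℂ)
    fun_prop
  · show Continuous fun β : ℝ => ((Real.cos (β / 2) : ℝ) : ℂ)
    fun_prop

/-- The matrix of a sphere family is jointly continuous. -/
theorem continuous_sphMat266 (d : ℝ) :
    Continuous fun p : ℝ × ℝ => rotZ p.1 * rotY p.2 * torus d :=
  ((continuous_rotZ266.comp continuous_fst).matrix_mul
    (continuous_rotY266.comp continuous_snd)).matrix_mul continuous_const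

/-- **A sphere family of `GL₂(ℂ)` is jointly continuous.** -/
theorem continuous_sph266 (d : ℝ) (y : ℝ → ℝ → GL (Fin 2) ℂ) (hy : H445.IsSphC445 d y) :
    Continuous fun p : ℝ × ℝ => y p.1 p.2 := by
  have hval : ∀ p : ℝ × ℝ, ((y p.1 p.2 : GL (Fin 2) ℂ) : Matrix (Fin 2) (Fin 2) ℂ)
      = rotZ p.1 * rotY p.2 * torus d := fun p => hy p.1 p.2
  have hdet : ∀ p : ℝ × ℝ, (rotZ p.1 * rotY p.2 * torus d).det = 1 := by
    intro p
    rw [Matrix.det_mul, Matrix.det_mul, det_rotZ266, det_rotY266, det_torus266, mul_one,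
      mul_one]
  have hinv : ∀ p : ℝ × ℝ, (((y p.1 p.2)⁻¹ : GL (Fin 2) ℂ) : Matrix (Fin 2) (Fin 2) ℂ)
      = (rotZ p.1 * rotY p.2 * torus d).adjugate := by
    intro p
    refine Units.inv_eq_of_mul_eq_one_right ?_
    rw [hval p, Matrix.mul_adjugate, hdet p, one_smul]
  refine Units.continuous_iff.2 ⟨?_, ?_⟩
  · show Continuous fun p : ℝ × ℝ => ((y p.1 p.2 : GL (Fin 2) ℂ) : Matrix (Fin 2) (Fin 2) ℂ)
    simp only [hval]
    exact continuous_sphMat266 d
  · show Continuous fun p : ℝ × ℝ =>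
      (((y p.1 p.2)⁻¹ : GL (Fin 2) ℂ) : Matrix (Fin 2) (Fin 2) ℂ)
    simp only [hinv]
    exact (continuous_sphMat266 d).matrix_adjugate

/-! ## 2. Fubini -/

section Fubini

variable (μc : @Measure (GL (Fin 2) ℂ) (borel _))
  (hμ : @Measure.IsHaarMeasure _ _ _ (borel _) μc)

include hμ

/-- **`M (A ⋆ B) = A ⋆ M B`.** -/
theorem sphMean_convInt266 (d : ℝ) (y : ℝ → ℝ → GL (Fin 2) ℂ) (hy : H445.IsSphC445 d y)
    (A B : GL (Fin 2) ℂ → ℂ) (hA : Continuous A) (hAc : HasCompactSupport A)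
    (hB : Continuous B) (hBc : HasCompactSupport B) :
    H445.sphMeanC445 y (@T6.convInt _ _ (borel _) μc A B)
      = @T6.convInt _ _ (borel _) μc A (H445.sphMeanC445 y B) := by
  letI : MeasurableSpace (GL (Fin 2) ℂ) := borel _
  haveI : BorelSpace (GL (Fin 2) ℂ) := ⟨rfl⟩
  haveI := hμ
  haveI := Fermat.Agent.LT.T6.H8.locallyCompactSpace_GL2C8
  haveI := Fermat.Agent.LT.T6.H8.secondCountableTopology_GL2C8
  funext g
  have hyc := continuous_sph266 d y hy
  obtain ⟨MA, hMA⟩ := hA.bounded_above_of_compact_support hAc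
  obtain ⟨MB, hMB⟩ := hB.bounded_above_of_compact_support hBc
  have hMA0 : 0 ≤ MA := le_trans (norm_nonneg _) (hMA 1)
  have hMB0 : 0 ≤ MB := le_trans (norm_nonneg _) (hMB 1)
  set Kc : Set (GL (Fin 2) ℂ) := tsupport A with hKc
  have hKcomp : IsCompact Kc := hAc
  have hKm : MeasurableSet Kc := hKcomp.isClosed.measurableSet
  -- the integrand
  set f : GL (Fin 2) ℂ → ℝ → ℝ → ℂ :=
    fun h α β => A h * B (h⁻¹ * (g * y α β)) * ((Real.sin β : ℝ) : ℂ) with hf
  have hfc : Continuous fun q : (ℝ × GL (Fin 2) ℂ) × ℝ => f q.1.2 q.1.1 q.2 := by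
    have h1 : Continuous fun q : (ℝ × GL (Fin 2) ℂ) × ℝ => y q.1.1 q.2 :=
      hyc.comp ((continuous_fst.comp continuous_fst).prodMk continuous_snd)
    have h2 : Continuous fun q : (ℝ × GL (Fin 2) ℂ) × ℝ => q.1.2 :=
      continuous_snd.comp continuous_fst
    have h3 : Continuous fun q : (ℝ × GL (Fin 2) ℂ) × ℝ => ((Real.sin q.2 : ℝ) : ℂ) :=
      Complex.continuous_ofReal.comp (Real.continuous_sin.comp continuous_snd)
    exact ((hA.comp h2).mul (hB.comp (h2.inv.mul (continuous_const.mul h1)))).mul h3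
  have hfb : ∀ h α β, ‖f h α β‖ ≤ MA * MB := by
    intro h α β
    show ‖A h * B (h⁻¹ * (g * y α β)) * ((Real.sin β : ℝ) : ℂ)‖ ≤ MA * MB
    rw [norm_mul, norm_mul, Complex.norm_real]
    have hs : ‖Real.sin β‖ ≤ 1 := by
      rw [Real.norm_eq_abs]
      exact Real.abs_sin_le_one β
    calc ‖A h‖ * ‖B (h⁻¹ * (g * y α β))‖ * ‖Real.sin β‖
        ≤ MA * MB * 1 := by
          gcongr
          · exact hMA h
          · exact hMB _
      _ = MA * MB := mul_one _
  have hf0 : ∀ h α β, h ∉ Kc → f h α β = 0 := by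
    intro h α β hh
    show A h * B (h⁻¹ * (g * y α β)) * ((Real.sin β : ℝ) : ℂ) = 0
    rw [image_eq_zero_of_notMem_tsupport hh, zero_mul, zero_mul]
  set να : Measure ℝ := volume.restrict (Set.Ioc 0 (2 * Real.pi)) with hνα
  set νβ : Measure ℝ := volume.restrict (Set.Ioc 0 Real.pi) with hνβ
  -- step 1: swap `h` and `β`
  have hint1 : ∀ α : ℝ, Integrable (Function.uncurry fun (β : ℝ) (h : GL (Fin 2) ℂ) => f h α β)
      (νβ.prod μc) := by
    intro α
    have hc : Continuous (Function.uncurry fun (β : ℝ) (h : GL (Fin 2) ℂ) => f h α β) :=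
      hfc.comp ((continuous_const.prodMk continuous_snd).prodMk continuous_fst)
    have hS : MeasurableSet ((Set.univ : Set ℝ) ×ˢ Kc) := MeasurableSet.univ.prod hKm
    have hfin : (νβ.prod μc) ((Set.univ : Set ℝ) ×ˢ Kc) < ⊤ := by
      rw [Measure.prod_prod]
      exact ENNReal.mul_lt_top (measure_lt_top _ _) hKcomp.measure_lt_top
    have hg : Integrable (((Set.univ : Set ℝ) ×ˢ Kc).indicator fun _ => (MA * MB : ℝ))
        (νβ.prod μc) :=
      (integrable_indicator_iff hS).2 (integrableOn_const hfin.ne)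
    refine hg.mono' hc.aestronglyMeasurable (Filter.Eventually.of_forall fun q => ?_)
    obtain ⟨β, h⟩ := q
    show ‖f h α β‖ ≤ _
    by_cases hh : h ∈ Kc
    · rw [Set.indicator_of_mem (Set.mk_mem_prod (Set.mem_univ β) hh)]
      exact hfb h α β
    · rw [hf0 h α β hh, norm_zero]
      exact Set.indicator_nonneg (fun _ _ => mul_nonneg hMA0 hMB0) _
  -- step 2: swap `h` and `α`
  have hint2 : Integrable (Function.uncurry fun (α : ℝ) (h : GL (Fin 2) ℂ) =>
      ∫ β, f h α β ∂νβ) (να.prod μc) := by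
    have hm : AEStronglyMeasurable (fun p : ℝ × GL (Fin 2) ℂ => ∫ β, f p.2 p.1 β ∂νβ)
        (να.prod μc) :=
      (hfc.aestronglyMeasurable (μ := (να.prod μc).prod νβ)).integral_prod_right'
    have hS : MeasurableSet ((Set.univ : Set ℝ) ×ˢ Kc) := MeasurableSet.univ.prod hKm
    have hfin : (να.prod μc) ((Set.univ : Set ℝ) ×ˢ Kc) < ⊤ := by
      rw [Measure.prod_prod]
      exact ENNReal.mul_lt_top (measure_lt_top _ _) hKcomp.measure_lt_top
    have hg : Integrable (((Set.univ : Set ℝ) ×ˢ Kc).indicator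
        fun _ => (MA * MB * (νβ Set.univ).toReal : ℝ)) (να.prod μc) :=
      (integrable_indicator_iff hS).2 (integrableOn_const hfin.ne)
    refine hg.mono' hm (Filter.Eventually.of_forall fun q => ?_)
    obtain ⟨α, h⟩ := q
    show ‖∫ β, f h α β ∂νβ‖ ≤ _
    by_cases hh : h ∈ Kc
    · rw [Set.indicator_of_mem (Set.mk_mem_prod (Set.mem_univ α) hh)]
      have := norm_integral_le_of_norm_le_const (μ := νβ) (f := fun β => f h α β)
        (C := MA * MB) (Filter.Eventually.of_forall fun β => hfb h α β)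
      simpa [Measure.real] using this
    · have h0 : (fun β => f h α β) = fun _ => (0 : ℂ) := funext fun β => hf0 h α β hh
      rw [h0, integral_zero, norm_zero]
      exact Set.indicator_nonneg
        (fun _ _ => mul_nonneg (mul_nonneg hMA0 hMB0) ENNReal.toReal_nonneg) _
  -- assembling
  have hπ : (0 : ℝ) ≤ Real.pi := Real.pi_pos.le
  have h2π : (0 : ℝ) ≤ 2 * Real.pi := by positivity
  show (∫ α in (0 : ℝ)..(2 * Real.pi), ∫ β in (0 : ℝ)..Real.pi,
      (∫ h, A h * B (h⁻¹ * (g * y α β)) ∂μc) * ((Real.sin β : ℝ) : ℂ))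
    = ∫ h, A h * (∫ α in (0 : ℝ)..(2 * Real.pi), ∫ β in (0 : ℝ)..Real.pi,
        B (h⁻¹ * g * y α β) * ((Real.sin β : ℝ) : ℂ)) ∂μc
  have hL : (∫ α in (0 : ℝ)..(2 * Real.pi), ∫ β in (0 : ℝ)..Real.pi,
      (∫ h, A h * B (h⁻¹ * (g * y α β)) ∂μc) * ((Real.sin β : ℝ) : ℂ))
      = ∫ α, ∫ β, ∫ h, f h α β ∂μc ∂νβ ∂να := by
    rw [intervalIntegral.integral_of_le h2π]
    refine integral_congr_ae (Filter.Eventually.of_forall fun α => ?_)
    show (∫ β in (0 : ℝ)..Real.pi,
      (∫ h, A h * B (h⁻¹ * (g * y α β)) ∂μc) * ((Real.sin β : ℝ) : ℂ)) = _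
    rw [intervalIntegral.integral_of_le hπ]
    refine integral_congr_ae (Filter.Eventually.of_forall fun β => ?_)
    show (∫ h, A h * B (h⁻¹ * (g * y α β)) ∂μc) * ((Real.sin β : ℝ) : ℂ) = ∫ h, f h α β ∂μc
    rw [← integral_mul_const]
  have hR : (∫ h, A h * (∫ α in (0 : ℝ)..(2 * Real.pi), ∫ β in (0 : ℝ)..Real.pi,
        B (h⁻¹ * g * y α β) * ((Real.sin β : ℝ) : ℂ)) ∂μc)
      = ∫ h, ∫ α, ∫ β, f h α β ∂νβ ∂να ∂μc := by
    refine integral_congr_ae (Filter.Eventually.of_forall fun h => ?_)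
    show A h * (∫ α in (0 : ℝ)..(2 * Real.pi), ∫ β in (0 : ℝ)..Real.pi,
        B (h⁻¹ * g * y α β) * ((Real.sin β : ℝ) : ℂ)) = ∫ α, ∫ β, f h α β ∂νβ ∂να
    rw [intervalIntegral.integral_of_le h2π, ← integral_const_mul]
    refine integral_congr_ae (Filter.Eventually.of_forall fun α => ?_)
    show A h * (∫ β in (0 : ℝ)..Real.pi,
        B (h⁻¹ * g * y α β) * ((Real.sin β : ℝ) : ℂ)) = ∫ β, f h α β ∂νβ
    rw [intervalIntegral.integral_of_le hπ, ← integral_const_mul]
    refine integral_congr_ae (Filter.Eventually.of_forall fun β => ?_)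
    show A h * (B (h⁻¹ * g * y α β) * ((Real.sin β : ℝ) : ℂ))
      = A h * B (h⁻¹ * (g * y α β)) * ((Real.sin β : ℝ) : ℂ)
    rw [mul_assoc h⁻¹ g, mul_assoc]
  rw [hL, hR]
  have hs1 : ∀ α : ℝ, (∫ β, ∫ h, f h α β ∂μc ∂νβ) = ∫ h, ∫ β, f h α β ∂νβ ∂μc := fun α =>
    integral_integral_swap (hint1 α)
  simp only [hs1]
  exact integral_integral_swap hint2

end Fubini

end Fermat.Agent.LT.T7.H266

end
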